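import Fermat.Agent.RED.S37.Defs
import Fermat.Agent.GAL.HeckeInputs
import Fermat.Agent.RED.Deuring.Modular
import Fermat.Agent.RED.S18Main
import Fermat.Agent.RR.Hurwitz

/-!
# RED / S37 : [EXIST]  the reduction map of places exists at the auxiliary level;  [HI]
-/

set_option autoImplicit false

noncomputable section

open AlgebraicCurve ModularCurve

namespace Fermat.Agent.RED

set_option synthInstance.maxHeartbeats 400000 in
/-- **[EXIST]** (Gauss datum + Deuring + `ḡ ≥ g` at level `N * aux ℓ`). -/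
theorem reductionInputsModL_aux {ℓ : ℕ} [Fact ℓ.Prime] (N : ℕ) [NeZero N] (hℓN : ¬ ℓ ∣ N)
    (A : ValuationSubring Kb) (hA : A.LiesOverPrime ℓ) :
    ReductionInputsModL A (N * aux ℓ) := by
  have h49 : 4 ∣ N * aux ℓ ∨ 9 ∣ N * aux ℓ := by
    rcases aux_eq ℓ with h | h <;> rw [h] <;> simp
  have hℓM : ¬ ℓ ∣ N * aux ℓ := not_dvd_mul_aux Fact.out hℓN
  have := charP_residueField A hA
  have := isAlgClosed_residueField A
  exact reductionInputsModL_of_genus_le (N * aux ℓ) A hA hℓM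
    (gen_of_rhRel (N * aux ℓ)
      (fun _ _ _ _ _ _ _ _ _ _ _ _ h1 h2 => Fermat.Agent.RR.rhRel h1 h2) h49 _ hℓM)

/-- **[HI]** (helper96, `GAL/HeckeInputs.lean`). -/
theorem heckeInputsAlong' (N c : ℕ) [NeZero N] [NeZero c] : HeckeInputsAlong Kb N c :=
  Fermat.Agent.GAL.HeckeInputs.heckeInputsAlong N c

end Fermat.Agent.RED
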