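import Fermat.Prelude.Def_AlgebraicCurve_Correspondence
import Fermat.Agent.RED.GalEq.Pull

/-!
# RED / S37 : pull-back on `Pic0` along an embedding of function fields  ([PULL], [PULL-GAL])
-/

set_option autoImplicit false

noncomputable section

open AlgebraicCurve

namespace Fermat.Agent.RED

section Pull

variable {K F F' : Type*} [Field K] [Field F] [Field F'] [Algebra K F] [Algebra K F']
variable [HasPrincipalDivisors K F']
variable (φ : F →ₐ[K] F') (hφ : φ.toRingHom.IsIntegral) (hFI : FundamentalIdentityAlong K φ hφ)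

/-- pull-back of degree zero divisors. -/
def pullDegZero : Divisor.degZero (K := K) (F := F) →+ Divisor.degZero (K := K) (F := F') :=
  ((Divisor.pullbackAlong φ hφ).domRestrict (Divisor.degZero (K := K) (F := F))).codRestrict _
    (fun D => Divisor.pullbackAlong_mem_degZero φ hφ hFI D.2)

@[simp]
theorem coe_pullDegZero (D : Divisor.degZero (K := K) (F := F)) :
    (pullDegZero φ hφ hFI D : Divisor K F') = Divisor.pullbackAlong φ hφ (D : Divisor K F) :=
  rfl

/-- pull-back of divisor classes of degree zero. -/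
def pullPic0 : Pic0 K F →+ Pic0 K F' :=
  QuotientAddGroup.map _ _ (pullDegZero φ hφ hFI) (by
    rintro ⟨D, hD0⟩ hD
    simp only [AddSubgroup.mem_addSubgroupOf] at hD ⊢
    exact Divisor.isPrincipal_pullbackAlong φ hφ hD)

theorem pullPic0_mk (D : Divisor.degZero (K := K) (F := F)) :
    pullPic0 φ hφ hFI (Pic0.mk D) = Pic0.mk (pullDegZero φ hφ hFI D) :=
  rfl

/-- **[PULL-GAL]** pull-back of divisors commutes with semilinear automorphisms which are
intertwined by `φ`. -/
theorem pullbackAlong_smul {g : SemilinearAut K F} {g' : SemilinearAut K F'}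
    (hg : SemilinearAut.IntertwinesAlong φ.toRingHom g g') (D : Divisor K F) :
    Divisor.pullbackAlong φ hφ (g • D) = g' • Divisor.pullbackAlong φ hφ D :=
  GalEq.pullbackAlong_smul φ hφ hg D

theorem pullPic0_smul {g : SemilinearAut K F} {g' : SemilinearAut K F'}
    (hg : SemilinearAut.IntertwinesAlong φ.toRingHom g g') (x : Pic0 K F) :
    pullPic0 φ hφ hFI (g • x) = g' • pullPic0 φ hφ hFI x := by
  obtain ⟨D, rfl⟩ := Pic0.mk_surjective x
  rw [SemilinearAut.pic0_smul_mk, pullPic0_mk, pullPic0_mk, SemilinearAut.pic0_smul_mk]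
  refine congrArg Pic0.mk (Subtype.ext ?_)
  rw [coe_pullDegZero, SemilinearAut.coe_degZeroSMulHom, SemilinearAut.coe_degZeroSMulHom,
    coe_pullDegZero]
  exact pullbackAlong_smul φ hφ hg _

end Pull

end Fermat.Agent.RED
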