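import Fermat.Agent.RED.S37.Defs
import Fermat.Agent.RED.GalEq.NonConst
import Fermat.Agent.RED.GalEq.Residue
import Fermat.Agent.RED.Cusp.Final
import Fermat.Agent.S24.DegreeInst
import Fermat.Agent.S24.CharpolyAlt

/-!
# RED / S37 : [GAL-EQ]  reduction commutes with the decomposition group;  [B-GAL]
-/

set_option autoImplicit false

noncomputable section

open AlgebraicCurve ModularCurve

namespace Fermat.Agent.RED

/-- `j` is a separating parameter of `F_M` over `ℚ̄`. -/
theorem isSepParam_jF_galEq (M : ℕ) [NeZero M] : IsSepParam Kb (S24.jF M) :=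
  IsSepParam.of_charZero (S24.isFiniteParam_jF_of M (S24.CPAlt.charpolyCoeff M))

/-- **[GAL-EQ]**.  Proof: `r := placeReductionModL h`.  `Φ₁ := r_* ∘ g_σ`, `Φ₂ := c_σ̄ ∘ r_*` agree on
`integralPrincipalDivisors` (series level: `σ y` is integral with reduction `σ̄ ȳ`), hence on all
principal divisors (`PrincipalGeneratedByIntegral`), hence everywhere by
`ES.hom_eq_of_agree_on_principal` (Lemma U, `d = 1`). -/
theorem reductionModL_smul {ℓ : ℕ} [Fact ℓ.Prime] (M : ℕ) [NeZero M] (hℓM : ¬ ℓ ∣ M)
    (A : ValuationSubring Kb) (hA : A.LiesOverPrime ℓ) (h : ReductionInputsModL A M)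
    (σ : GQ) (hσ : σ ∈ A.decompositionSubgroup ℚ) (x : JZero M) :
    reductionModL A M (σ • x) =
      coeffAut (IsLocalRing.ResidueField A) M (resAut A σ hσ) • reductionModL A M x := by
  haveI : IsAlgClosed (IsLocalRing.ResidueField A) := GalEq.isAlgClosed_residueField A
  haveI : CharP (IsLocalRing.ResidueField A) ℓ := GalEq.charP_residueField Fact.out hA
  exact GalEq.reductionAlong_smul (isSepParam_jF_galEq M)
    (Cusp.isSepParam_jb M (IsLocalRing.ResidueField A) ℓ hℓM) h
    (σA := GalEq.decompHom A σ hσ) ⟨fun _ => rfl, fun _ => rfl⟩ x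

/-- `B : f(q) ↦ f(q^c)` intertwines the coefficientwise Galois actions. -/
theorem intertwines_heckeBetaBar (N c : ℕ) [NeZero N] [NeZero c] (σ : GQ) :
    SemilinearAut.IntertwinesAlong (heckeBetaBar Kb N c).toRingHom
      (arithmeticGalois (modularFunctionFieldFull N) σ)
      (arithmeticGalois (modularFunctionFieldFull (N * c)) σ) := by
  intro x
  apply Subtype.ext
  exact coeffMap_qExpand (σ : Kb →+* Kb) c (x : LaurentSeries Kb)

/-- **[B-GAL]** `B^*` is Galois equivariant (`B` acts on `q`, `σ` on the coefficients). -/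
theorem Bstar_smul (N c : ℕ) [NeZero N] [NeZero c] (hB : HeckeInputsAlong Kb N c)
    (σ : GQ) (x : JZero N) : Bstar N c hB (σ • x) = σ • Bstar N c hB x := by
  haveI := hB.snd.snd.fst
  rw [galois_smul_pic0_def, galois_smul_pic0_def]
  exact pullPic0_smul _ _ _ (intertwines_heckeBetaBar N c σ) x

end Fermat.Agent.RED
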