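import Fermat.Agent.RED.S37.Defs
import Fermat.Agent.RED.S18.Descent
import Fermat.Agent.RED.TorsESAbs

/-!
# RED / S37 : [PIC-DESC]  `B^*` is injective on torsion classes
-/

set_option autoImplicit false

noncomputable section

open AlgebraicCurve ModularCurve

namespace Fermat.Agent.RED

set_option synthInstance.maxHeartbeats 400000

/-- `B^*` is injective on torsion classes, under the index inequality. -/
theorem Bstar_eq_zero_of_torsion_of_card_lt (N c : ℕ) [NeZero N] [NeZero c]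
    (hlt : Nat.card (S24.XN (N * c)) < 2 * c * Nat.card (S24.XN N))
    (hB : HeckeInputsAlong Kb N c) (x : JZero N) (m : ℕ) (hm : m ≠ 0) (hmx : m • x = 0)
    (hx : Bstar N c hB x = 0) : x = 0 := by
  haveI := hB.snd.snd.fst
  obtain ⟨D, rfl⟩ := Pic0.mk_surjective x
  obtain ⟨f, hf⟩ := TorsES.exists_isDiv_of_nsmul_eq_zero hmx
  have hm' : (m : ℤ) ≠ 0 := by exact_mod_cast hm
  -- the pull-back of `D` is principal
  have hx' : Pic0.mk (pullDegZero (heckeBetaBar Kb N c) hB.snd.fst hB.snd.snd.snd.snd.1 D) = 0 := hx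
  rw [TorsES.mk_eq_zero_iff, coe_pullDegZero] at hx'
  obtain ⟨h, hh0, hh⟩ := hx'
  have hβf := hf.pullbackAlong (heckeBetaBar Kb N c) hB.snd.fst
  have hsep : IsSepParam Kb (S24.jF (N * c)) :=
    IsSepParam.of_charZero (GAL.HeckeInputs.isFiniteParam_jF (N * c))
  -- `β f / h ^ m` is constant
  have hord : ∀ w : Place Kb (S24.FN (N * c)),
      w.ord (heckeBetaBar Kb N c f * (h ^ m)⁻¹) = 0 := by
    intro w
    rw [w.ord_mul hβf.1 (inv_ne_zero (pow_ne_zero m hh0)), w.ord_inv, S24.Place.ord_pow,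
      ← hβf.2 w, hh w]
    ring
  obtain ⟨a, ha⟩ := hsep.mem_range_of_forall_ord_nonneg (fun w => (hord w).ge)
  obtain ⟨b, hb⟩ := IsAlgClosed.exists_pow_nat_eq a (Nat.pos_of_ne_zero hm)
  have hpow : (algebraMap Kb (S24.FN (N * c)) b * h) ^ m = heckeBetaBar Kb N c f := by
    rw [mul_pow, ← map_pow, hb, ha, mul_assoc, inv_mul_cancel₀ (pow_ne_zero m hh0), mul_one]
  have hdiv : ∀ P : Place Kb (S24.FN N), (m : ℤ) ∣ P.ord f := fun P => ⟨_, (hf.2 P).symm⟩
  obtain ⟨g, hg, -⟩ := Desc.exists_root_of_beta_eq_pow N c hlt hm f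
    (dvd_order_of_dvd_ord N f hf.1 hdiv) _ hpow
  have hg0 : g ≠ 0 := by
    rintro rfl
    rw [zero_pow hm] at hg
    exact hf.1 hg.symm
  refine TorsES.mk_eq_zero_of_isDiv hm' hf ⟨g, hg0, fun P => ?_⟩
  rw [← hg, S24.Place.ord_pow]

theorem card_lt_of_eq_sq (N c : ℕ) [NeZero N] {p : ℕ} (hp : p.Prime) (hc : c = p * p) :
    Nat.card (S24.XN (N * c)) < 2 * c * Nat.card (S24.XN N) := by
  subst hc
  exact card_lt_prime_sq N hp

/-- **[PIC-DESC]** (helper15 (PIC)). -/
theorem Bstar_eq_zero_of_torsion (N c : ℕ) [NeZero N] [NeZero c] (hc : c = 4 ∨ c = 9)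
    (hB : HeckeInputsAlong Kb N c) (x : JZero N) (m : ℕ) (hm : m ≠ 0) (hmx : m • x = 0)
    (hx : Bstar N c hB x = 0) : x = 0 := by
  refine Bstar_eq_zero_of_torsion_of_card_lt N c ?_ hB x m hm hmx hx
  rcases hc with h | h
  · exact card_lt_of_eq_sq N c Nat.prime_two (h.trans (by norm_num))
  · exact card_lt_of_eq_sq N c Nat.prime_three (h.trans (by norm_num))

end Fermat.Agent.RED
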