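import Fermat.Agent.RED.S37.Defs
import Fermat.Agent.RED.GalEq.HeckeDiv

/-!
# RED / S37 : [ES']  the Eichler-Shimura congruence for `red = reductionModL ∘ B^*`
-/

set_option autoImplicit false

noncomputable section

open AlgebraicCurve ModularCurve

namespace Fermat.Agent.RED

open Fermat.Agent.GAL.HeckeInputs Fermat.Agent.RED.TorsES in
/-- **[ES']**.  Lemma U (in degree zero, `GalEq.hom_eq_of_agree_on_principal_of_cnt_eq_zero`) for
`Φ₁ := r'_* ∘ B^* ∘ T_ℓ`, `Φ₂ := (φ_* + ℓ φ_*⁻¹) ∘ r'_* ∘ B^*`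
(`Div F_N → Div Fb_{Nc}`, places go to effective divisors of bounded degree);
on principal divisors: `T_ℓ div y = div N_α(β y)` and
`red (N_α (β y)) = ȳ(q^ℓ) · φ(ȳ)`, `ȳ(q^ℓ) = (φ⁻¹ ȳ)^ℓ`. -/
theorem reduction_hecke {ℓ : ℕ} (hℓ : ℓ.Prime) (N c : ℕ) [NeZero N] [NeZero c]
    (hℓN : ¬ ℓ ∣ N * c) (A : ValuationSubring Kb) (hA : A.LiesOverPrime ℓ)
    (hB : HeckeInputsAlong Kb N c) (h : ReductionInputsModL A (N * c))
    (φ : IsLocalRing.ResidueField A ≃+* IsLocalRing.ResidueField A) (hφ : ∀ x, φ x = x ^ ℓ)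
    (x : JZero N) :
    reductionModL A (N * c) (Bstar N c hB (heckeOperatorBar N ⟨ℓ, hℓ⟩ x)) =
      coeffAut (IsLocalRing.ResidueField A) (N * c) φ • reductionModL A (N * c) (Bstar N c hB x) +
        ℓ • ((coeffAut (IsLocalRing.ResidueField A) (N * c) φ)⁻¹ •
          reductionModL A (N * c) (Bstar N c hB x)) := by
  haveI : Fact ℓ.Prime := ⟨hℓ⟩
  haveI : NeZero ℓ := ⟨hℓ.ne_zero⟩
  haveI : IsAlgClosed (IsLocalRing.ResidueField A) := GalEq.isAlgClosed_residueField A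
  haveI : CharP (IsLocalRing.ResidueField A) ℓ := GalEq.charP_residueField hℓ hA
  have hc : coeffAut (IsLocalRing.ResidueField A) (N * c) φ =
      frobC (IsLocalRing.ResidueField A) (N * c) ℓ := by
    have : φ = frobeniusEquiv (IsLocalRing.ResidueField A) ℓ := by
      ext x
      rw [hφ, frobeniusEquiv_apply, frobenius_def]
    rw [this]
    rfl
  obtain ⟨D, rfl⟩ := Pic0.mk_surjective x
  rw [hc]
  change reductionModL A (N * c) (Bstar N c hB (heckeOperatorAlong Kb N ℓ (Pic0.mk D))) = _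
  rw [heckeOperatorAlong_eq' N ℓ]
  have hT : heckePic0Bar (heckeAlphaBarIntegral N ℓ) (heckeBetaBarIntegral N ℓ)
        (fundamentalIdentityAlong_beta N ℓ) (finiteAlong_alpha N ℓ) (normFormulaAlong_alpha N ℓ)
        (Pic0.mk D) =
      Pic0.mk (Pic0.degZeroCorrespondence (heckeBetaBar Kb N ℓ) (heckeAlphaBar Kb N ℓ)
        (heckeBetaBarIntegral N ℓ) (heckeAlphaBarIntegral N ℓ)
        (fundamentalIdentityAlong_beta N ℓ) D) := rfl
  have hBs : ∀ E : Divisor.degZero (K := Kb) (F := modularFunctionFieldBar N),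
      Bstar N c hB (Pic0.mk E) = Pic0.mk (pullDegZero (heckeBetaBar Kb N c)
        (heckeBetaBarIntegral N c) (fundamentalIdentityAlong_beta N c) E) := fun _ => rfl
  rw [hT, hBs, hBs, reductionModL_mk h, reductionModL_mk h, SemilinearAut.pic0_smul_mk,
    SemilinearAut.pic0_smul_mk, ← mk_nsmul', ← Pic0.mk_add]
  refine congrArg Pic0.mk (Subtype.ext ?_)
  exact GalEq.Phi_eq_of_degree_eq_zero N c hℓN IsLocalRing.residue_surjective
    (isPlaceReductionModL_placeReductionModL h) D (Divisor.mem_degZero.mp D.2)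

end Fermat.Agent.RED
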