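import Fermat.Agent.RED.ES.Assembly
import Fermat.Agent.RED.S37.GalEq
import Fermat.Agent.RED.S37.ESLeaf
import Fermat.Agent.RED.S37.Exist
import Fermat.Agent.RED.S37.PicDesc

/-!
# RED / S37 : assembly of S37 from the leaves and from S18 (at the auxiliary level)
-/

set_option autoImplicit false

noncomputable section

open AlgebraicCurve ModularCurve

namespace Fermat.Agent.RED

/-- the statement of S18. -/
def S18Statement : Prop :=
  ∀ (N : ℕ) [NeZero N] {ℓ : ℕ} [Fact ℓ.Prime] (_ : ¬ ℓ ∣ N) (A : ValuationSubring Kb)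
    (_ : A.LiesOverPrime ℓ) (_ : ReductionInputsModL A N) (m : ℕ) (_ : ¬ ℓ ∣ m) (z : JZero N)
    (_ : m • z = 0) (_ : reductionModL A N z = 0), z = 0

theorem resAut_eq_of_isFrobeniusAt {A : ValuationSubring Kb} {ℓ : ℕ} {σ τ : GQ}
    (hσ : A.IsFrobeniusAt σ ℓ) (hτ : A.IsFrobeniusAt τ ℓ) :
    resAut A σ hσ.mem_decompositionSubgroup = resAut A τ hτ.mem_decompositionSubgroup := by
  ext x
  rw [resAut_apply, resAut_apply, hσ.smul_residue_eq, hτ.smul_residue_eq]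

theorem resAut_eq_refl_of_mem_inertia {A : ValuationSubring Kb} {σ : GQ}
    (hσ : σ ∈ A.inertiaSubgroupIn ℚ) :
    ∃ h : σ ∈ A.decompositionSubgroup ℚ, resAut A σ h = RingEquiv.refl _ := by
  obtain ⟨s, hs, rfl⟩ := hσ
  refine ⟨s.2, ?_⟩
  ext x
  have := (MonoidHom.mem_ker (f := MulSemiringAction.toRingAut (A.decompositionSubgroup ℚ)
    (IsLocalRing.ResidueField A))).mp hs
  exact congrArg (fun e : RingAut (IsLocalRing.ResidueField A) => e x) this

set_option maxHeartbeats 2000000 in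
theorem specializationExists (hS18 : S18Statement) (N p : ℕ) [NeZero N]
    (hcomm : HeckeOperatorsCommuteBar N) :
    letI := heckeModuleBar N
    ∀ (_ : SMulCommClass GQ HeckeAlg (JZero N)),
      SpecializationExists (K := ℚ) (L := Kb) N p (JZero N) := by
  letI := heckeModuleBar N
  intro _
  refine ES.specializationExists_of N p (JZero N) ?_
  intro ℓ hℓ hℓNp A hA
  haveI : Fact ℓ.Prime := ⟨hℓ⟩
  have hℓN : ¬ ℓ ∣ N := fun h => hℓNp (h.mul_right p)
  have hℓp : ¬ ℓ ∣ p := fun h => hℓNp (h.mul_left N)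
  have hℓN' : ¬ ℓ ∣ N * aux ℓ := not_dvd_mul_aux hℓ hℓN
  have hB : HeckeInputsAlong Kb N (aux ℓ) := heckeInputsAlong' N (aux ℓ)
  have h : ReductionInputsModL A (N * aux ℓ) := reductionInputsModL_aux N hℓN A hA
  obtain ⟨σ₀, hσ₀⟩ := Fermat.Agent.S54.exists_isFrobeniusAt_of_liesOverPrime hℓ A hA
  set φ := resAut A σ₀ hσ₀.mem_decompositionSubgroup with hφdef
  have hφ : ∀ x, φ x = x ^ ℓ := fun x => by
    rw [hφdef, resAut_apply, hσ₀.smul_residue_eq]
  set c := coeffAut (IsLocalRing.ResidueField A) (N * aux ℓ) φ with hc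
  let red : JZero N →+ JZeroC (IsLocalRing.ResidueField A) (N * aux ℓ) :=
    (reductionModL A (N * aux ℓ)).comp (Bstar N (aux ℓ) hB)
  let Fr : JZeroC (IsLocalRing.ResidueField A) (N * aux ℓ) →+
      JZeroC (IsLocalRing.ResidueField A) (N * aux ℓ) := DistribSMul.toAddMonoidHom _ c
  let V : JZeroC (IsLocalRing.ResidueField A) (N * aux ℓ) →+
      JZeroC (IsLocalRing.ResidueField A) (N * aux ℓ) := ℓ • DistribSMul.toAddMonoidHom _ c⁻¹
  have hred : ∀ x, red x = reductionModL A (N * aux ℓ) (Bstar N (aux ℓ) hB x) := fun _ => rfl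
  have hFr : ∀ y, Fr y = c • y := fun _ => rfl
  have hV : ∀ y, V y = ℓ • (c⁻¹ • y) := fun _ => rfl
  clear_value red Fr V
  refine ⟨_, inferInstance, red, Fr, V, ?_, ?_, ?_, ?_, ?_⟩
  · intro σ hσ x
    obtain ⟨hσ', hrefl⟩ := resAut_eq_refl_of_mem_inertia hσ
    rw [hred, hred, Bstar_smul, reductionModL_smul (N * aux ℓ) hℓN' A hA h σ hσ', hrefl,
      coeffAut_refl, one_smul]
  · intro σ hσ x
    have hσ' : σ ∈ A.decompositionSubgroup ℚ := hσ.mem_decompositionSubgroup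
    have e : resAut A σ hσ' = φ := resAut_eq_of_isFrobeniusAt hσ hσ₀
    rw [hred, hred, hFr, Bstar_smul, reductionModL_smul (N * aux ℓ) hℓN' A hA h σ hσ', e]
  · intro x
    have e : heckeGen ⟨ℓ, hℓ⟩ • x = heckeOperatorBar N ⟨ℓ, hℓ⟩ x :=
      heckeModuleBar_heckeGen_smul hcomm ⟨ℓ, hℓ⟩ x
    rw [hred, hred, hFr, hV, e, reduction_hecke hℓ N (aux ℓ) hℓN' A hA hB h φ hφ x]
  · intro y
    rw [hFr, hV, inv_smul_smul]
  · rintro x ⟨n, hn⟩ hx
    rw [hred] at hx
    have h1 : Bstar N (aux ℓ) hB x = 0 := by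
      refine hS18 (N * aux ℓ) hℓN' A hA h (p ^ n) (fun hd => hℓp (hℓ.dvd_of_dvd_pow hd)) _ ?_ hx
      rw [← map_nsmul, hn, map_zero]
    by_cases hp : p = 0
    · subst hp
      exact absurd (dvd_zero ℓ) hℓp
    · exact Bstar_eq_zero_of_torsion N (aux ℓ) (aux_eq ℓ) hB x (p ^ n) (pow_ne_zero n hp) hn h1

end Fermat.Agent.RED
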