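import Fermat.Agent.RED.Frobk.Basic

/-!
# RED / S37 : coefficientwise automorphisms of the function field in characteristic `ℓ`  ([FROBk])

`coeffAut k M τ` is helper30's `coeffSemiC M τ` (`RED/Frobk/Basic.lean`).
-/

set_option autoImplicit false

noncomputable section

open AlgebraicCurve ModularCurve

namespace Fermat.Agent.RED

variable (k : Type*) [Field k] (M : ℕ)

/-- the coefficientwise action of `τ`. -/
def coeffAut (τ : k ≃+* k) : SemilinearAut k (modularFunctionFieldFullC k M) :=
  coeffSemiC M τ

theorem coeffAut_eq (τ : k ≃+* k) : coeffAut k M τ = coeffSemiC M τ := rfl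

theorem baseAut_coeffAut (τ : k ≃+* k) : SemilinearAut.baseAut (coeffAut k M τ) = τ := rfl

theorem coe_coeffAut_smul (τ : k ≃+* k) (x : modularFunctionFieldFullC k M) :
    ((coeffAut k M τ • x : modularFunctionFieldFullC k M) : LaurentSeries k) =
      coeffMap (τ : k →+* k) (x : LaurentSeries k) := rfl

theorem coeffAut_refl : coeffAut k M (RingEquiv.refl k) = 1 :=
  map_one (coeffSemiC (k := k) M)

end Fermat.Agent.RED
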