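import Fermat.Statements.S37
import Fermat.Statements.S18
import Fermat.Agent.RED.S37.Pull
import Fermat.Agent.RED.S37.CoeffAut

/-!
# RED / S37 : definitions shared by the leaves of the S37 assembly
-/

set_option autoImplicit false

noncomputable section

open AlgebraicCurve ModularCurve

namespace Fermat.Agent.RED

/-- `ℚ̄`. -/
abbrev Kb : Type := AlgebraicClosure ℚ

/-- the absolute Galois group. -/
abbrev GQ : Type := Kb ≃ₐ[ℚ] Kb

/-- the auxiliary level multiplier: `N' = N * aux ℓ`, `aux ℓ = 4` for odd `ℓ`, `9` for `ℓ = 2`. -/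
def aux (ℓ : ℕ) : ℕ := if ℓ = 2 then 9 else 4

instance (ℓ : ℕ) : NeZero (aux ℓ) := ⟨by unfold aux; split_ifs <;> norm_num⟩

theorem aux_eq (ℓ : ℕ) : aux ℓ = 4 ∨ aux ℓ = 9 := by unfold aux; split_ifs <;> simp

theorem not_dvd_mul_aux {ℓ N : ℕ} (hℓ : ℓ.Prime) (h : ¬ ℓ ∣ N) : ¬ ℓ ∣ N * aux ℓ := by
  intro hd
  rcases (Nat.Prime.dvd_mul hℓ).mp hd with h1 | h1
  · exact h h1
  · unfold aux at h1
    split_ifs at h1 with h2
    · subst h2; omega
    · have : ℓ ∣ 2 ^ 2 := by simpa using h1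
      exact h2 ((Nat.prime_dvd_prime_iff_eq hℓ Nat.prime_two).mp (hℓ.dvd_of_dvd_pow this))

/-- pull-back of divisor classes along `B : f(q) ↦ f(q^c)`, `F_N → F_{Nc}`. -/
def Bstar (N c : ℕ) [NeZero N] [NeZero c] (hB : HeckeInputsAlong Kb N c) :
    JZero N →+ JZero (N * c) :=
  haveI := hB.snd.snd.fst
  pullPic0 (heckeBetaBar Kb N c) hB.snd.fst hB.snd.snd.snd.snd.1

/-- the automorphism of the residue field induced by an element of the decomposition group. -/
def resAut (A : ValuationSubring Kb) (σ : GQ) (hσ : σ ∈ A.decompositionSubgroup ℚ) :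
    IsLocalRing.ResidueField A ≃+* IsLocalRing.ResidueField A :=
  MulSemiringAction.toRingEquiv (A.decompositionSubgroup ℚ) (IsLocalRing.ResidueField A) ⟨σ, hσ⟩

theorem resAut_apply (A : ValuationSubring Kb) (σ : GQ) (hσ : σ ∈ A.decompositionSubgroup ℚ)
    (x : IsLocalRing.ResidueField A) :
    resAut A σ hσ x = (⟨σ, hσ⟩ : A.decompositionSubgroup ℚ) • x := rfl

end Fermat.Agent.RED
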